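import Fermat.Agent.LT.T6.H626.FamAlg
import Fermat.Agent.LT.T6.H830.HCTransC

/-!
# Row LT, tower T6, leaf T6.20a.5 `F0SoftOfC626` (helper3, registry row 1686)

OFF-MAIN.  `f0SoftOf3 : Fermat.Agent.LT.T6.H626.F0SoftOfC626`: the closed form
`abelF0_626 c φ` of weight `0` is continuous, compactly supported and bi-`SO(2)`-invariant.

* invariance: `det` and `rhoR` are bi-`SO(2)`-invariant; `φ(M_v(y))` depends on
  `(det y, rhoR y, v)` only (`famAlg626` + `CartanCC` + bi-`U(2)`-invariance of `φ`);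
* support: on the support of `φ`, `ε ≤ |det| ≤ C` and `rhoC ≤ R`; so on the support of the closed
  form `ε² ≤ det y ≤ C²`, `rhoR y ≤ 2R²`: entries of `y` and of `y⁻¹` are bounded, and
  `Units.embedProduct` is a closed embedding;
* continuity: dominated convergence on the open set `det > 0` of `M₂(ℝ)` (the integrand is
  jointly continuous, bounded by `sup |φ|` and vanishes for `|v| > 2R`), `det > 0` is open and
  closed in `GL₂(ℝ)`.
-/

set_option autoImplicit false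

open scoped Matrix
open MeasureTheory

noncomputable section

namespace Fermat.Agent.LT.T6.H3

open Fermat.Agent.LT.T6 Fermat.Agent.LT.T6.H626 Fermat.Agent.LT.T6.H830

/-! ## A. Invariance of `det` and `rhoR` -/

theorem det_pos_gl3s (y : GL (Fin 2) ℝ) (h : ¬ 0 < (y : Matrix (Fin 2) (Fin 2) ℝ).det) :
    (y : Matrix (Fin 2) (Fin 2) ℝ).det < 0 := by
  have h0 : (y : Matrix (Fin 2) (Fin 2) ℝ).det ≠ 0 :=
    ((Matrix.isUnit_iff_isUnit_det _).1 y.isUnit).ne_zero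
  exact lt_of_le_of_ne (not_lt.1 h) h0

theorem so2_transpose_mul3s {k : GL (Fin 2) ℝ} (hk : InSO2 k) :
    (k : Matrix (Fin 2) (Fin 2) ℝ).transpose * (k : Matrix (Fin 2) (Fin 2) ℝ) = 1 :=
  mul_eq_one_comm.mp hk.1

theorem det_mul_left3s {k : GL (Fin 2) ℝ} (hk : InSO2 k) (g : GL (Fin 2) ℝ) :
    ((k * g : GL (Fin 2) ℝ) : Matrix (Fin 2) (Fin 2) ℝ).det
      = (g : Matrix (Fin 2) (Fin 2) ℝ).det := by
  rw [Units.val_mul, Matrix.det_mul, hk.2, one_mul]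

theorem det_mul_right3s {k : GL (Fin 2) ℝ} (hk : InSO2 k) (g : GL (Fin 2) ℝ) :
    ((g * k : GL (Fin 2) ℝ) : Matrix (Fin 2) (Fin 2) ℝ).det
      = (g : Matrix (Fin 2) (Fin 2) ℝ).det := by
  rw [Units.val_mul, Matrix.det_mul, hk.2, mul_one]

theorem rhoM_mul_left3s {k : GL (Fin 2) ℝ} (hk : InSO2 k) (g : GL (Fin 2) ℝ) :
    rhoM626 ((k * g : GL (Fin 2) ℝ) : Matrix (Fin 2) (Fin 2) ℝ)
      = rhoM626 (g : Matrix (Fin 2) (Fin 2) ℝ) := by
  unfold rhoM626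
  rw [det_mul_left3s hk]
  congr 2
  rw [Units.val_mul, Matrix.transpose_mul, Matrix.mul_assoc,
    ← Matrix.mul_assoc _ (k : Matrix (Fin 2) (Fin 2) ℝ), so2_transpose_mul3s hk, Matrix.one_mul]

theorem rhoM_mul_right3s {k : GL (Fin 2) ℝ} (hk : InSO2 k) (g : GL (Fin 2) ℝ) :
    rhoM626 ((g * k : GL (Fin 2) ℝ) : Matrix (Fin 2) (Fin 2) ℝ)
      = rhoM626 (g : Matrix (Fin 2) (Fin 2) ℝ) := by
  unfold rhoM626
  rw [det_mul_right3s hk]
  congr 1
  rw [Units.val_mul, Matrix.transpose_mul, Matrix.mul_assoc, Matrix.trace_mul_comm,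
    Matrix.mul_assoc, Matrix.mul_assoc, hk.1, Matrix.mul_one]

/-! ## B. `φ(M_v(y))` depends on `(det y, rhoR y, v)` only -/

theorem phi_fam_congr3s (hC : CartanCC) {φ : GL (Fin 2) ℂ → ℂ} (hφ : IsArchTestC φ)
    {y y' : Matrix (Fin 2) (Fin 2) ℝ} (hy : 0 < y.det) (hy' : 0 < y'.det)
    (hdet : y'.det = y.det) (hρ : rhoM626 y' = rhoM626 y) (v : ℝ) :
    φ (toGLC626 (famMat626 y' v)) = φ (toGLC626 (famMat626 y v)) := by
  obtain ⟨-, -, hr, hn⟩ := famAlg626 y hy v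
  obtain ⟨-, -, hr', hn'⟩ := famAlg626 y' hy' v
  obtain ⟨k, k', hk, hk', e⟩ := hC (toGLC626 (famMat626 y v)) (toGLC626 (famMat626 y' v))
    (by rw [hn, hn', hdet]) (by rw [hr, hr', hρ])
  rw [e, hφ.right _ _ hk', hφ.left _ _ hk]

theorem wtChar_zero3s (k : GL (Fin 2) ℝ) : wtChar 0 k = 1 := by
  unfold wtChar
  exact zpow_zero _

theorem abelF0_congr3s (hC : CartanCC) (c : ℂ) {φ : GL (Fin 2) ℂ → ℂ} (hφ : IsArchTestC φ)
    (g g' : GL (Fin 2) ℝ)
    (hdet : (g' : Matrix (Fin 2) (Fin 2) ℝ).det = (g : Matrix (Fin 2) (Fin 2) ℝ).det)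
    (hρ : rhoM626 (g' : Matrix (Fin 2) (Fin 2) ℝ) = rhoM626 (g : Matrix (Fin 2) (Fin 2) ℝ)) :
    abelF0_626 c φ g' = abelF0_626 c φ g := by
  unfold abelF0_626
  rw [hdet]
  by_cases h : 0 < (g : Matrix (Fin 2) (Fin 2) ℝ).det
  · rw [if_pos h, if_pos h]
    congr 1
    refine integral_congr_ae (Filter.Eventually.of_forall fun v => ?_)
    show φ (toGLC626 (famMat626 (g' : Matrix (Fin 2) (Fin 2) ℝ) v)) /
        ((xv626 (rhoR g') v : ℝ) : ℂ)
      = φ (toGLC626 (famMat626 (g : Matrix (Fin 2) (Fin 2) ℝ) v)) /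
        ((xv626 (rhoR g) v : ℝ) : ℂ)
    rw [rhoR_eq_rhoM626, rhoR_eq_rhoM626, hρ,
      phi_fam_congr3s hC hφ h (by rw [hdet]; exact h) hdet hρ v]
  · rw [if_neg h, if_neg h]

/-! ## C. Bounds on the support -/

theorem exists_bounds3s {φ : GL (Fin 2) ℂ → ℂ} (hφ : IsArchTestC φ) :
    ∃ ε C R : ℝ, 0 < ε ∧ ∀ g : GL (Fin 2) ℂ, φ g ≠ 0 →
      ε ≤ ‖(g : Matrix (Fin 2) (Fin 2) ℂ).det‖ ∧ ‖(g : Matrix (Fin 2) (Fin 2) ℂ).det‖ ≤ C ∧
        rhoC g ≤ R := by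
  have hK : IsCompact (tsupport φ) := hφ.supp
  have hval : Continuous fun y : GL (Fin 2) ℂ => (y : Matrix (Fin 2) (Fin 2) ℂ) :=
    Units.continuous_val
  have hdet : Continuous fun y : GL (Fin 2) ℂ => (y : Matrix (Fin 2) (Fin 2) ℂ).det :=
    hval.matrix_det
  obtain ⟨C, hCb⟩ := hK.exists_bound_of_continuousOn hdet.continuousOn
  obtain ⟨C', hC'b⟩ := hK.exists_bound_of_continuousOn (hdet.inv₀ det_ne_zero830).continuousOn
  obtain ⟨R, hRb⟩ := hK.exists_bound_of_continuousOn continuous_rhoC830.continuousOn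
  refine ⟨(max C' 1)⁻¹, C, R, by positivity, fun g hg => ?_⟩
  have hgK : g ∈ tsupport φ := subset_tsupport φ hg
  refine ⟨?_, hCb g hgK, (le_abs_self _).trans (hRb g hgK)⟩
  have h1 : ‖((g : Matrix (Fin 2) (Fin 2) ℂ).det)⁻¹‖ ≤ C' := hC'b g hgK
  rw [norm_inv] at h1
  have hpos : 0 < ‖(g : Matrix (Fin 2) (Fin 2) ℂ).det‖ := norm_pos_iff.2 (det_ne_zero830 g)
  rw [inv_le_comm₀ (by positivity) hpos]
  exact h1.trans (le_max_left _ _)

theorem fam_bounds3s {ε C R : ℝ} {φ : GL (Fin 2) ℂ → ℂ}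
    (hb : ∀ g : GL (Fin 2) ℂ, φ g ≠ 0 →
      ε ≤ ‖(g : Matrix (Fin 2) (Fin 2) ℂ).det‖ ∧ ‖(g : Matrix (Fin 2) (Fin 2) ℂ).det‖ ≤ C ∧
        rhoC g ≤ R) (hε : 0 < ε)
    {y : Matrix (Fin 2) (Fin 2) ℝ} (hy : 0 < y.det) {v : ℝ}
    (hv : φ (toGLC626 (famMat626 y v)) ≠ 0) :
    ε ^ 2 ≤ y.det ∧ y.det ≤ C ^ 2 ∧ rhoM626 y ≤ 2 * R ^ 2 ∧ |v| ≤ 2 * R ∧ 1 ≤ R := by
  obtain ⟨-, -, hr, hn⟩ := famAlg626 y hy v
  obtain ⟨h1, h2, h3⟩ := hb _ hv
  rw [hn] at h1 h2
  rw [hr] at h3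
  have hρ := one_le_rhoM626 y hy
  have hx := one_le_xv626 (rhoM626 y) v hρ
  have hx2 := xv_sq626 (rhoM626 y) v hρ
  have hsq : Real.sqrt y.det ^ 2 = y.det := Real.sq_sqrt hy.le
  have hs0 : 0 ≤ Real.sqrt y.det := Real.sqrt_nonneg _
  have hR1 : 1 ≤ R := hx.trans h3
  have hxR : xv626 (rhoM626 y) v ^ 2 ≤ R ^ 2 := by nlinarith
  have hv2 : v ^ 2 ≤ 2 * R ^ 2 := by nlinarith
  refine ⟨by nlinarith, by nlinarith, by nlinarith [sq_nonneg v], ?_, hR1⟩
  exact abs_le.2 ⟨by nlinarith, by nlinarith⟩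

/-! ## D. A compact subset of `GL₂(ℝ)` -/

theorem isCompact_box3s (b : ℝ) :
    IsCompact {M : Matrix (Fin 2) (Fin 2) ℝ | ∀ i j, |M i j| ≤ b} := by
  have h : IsCompact (Set.univ.pi fun _ : Fin 2 => Set.univ.pi fun _ : Fin 2 => Set.Icc (-b) b) :=
    isCompact_univ_pi fun _ => isCompact_univ_pi fun _ => isCompact_Icc
  have e : {M : Matrix (Fin 2) (Fin 2) ℝ | ∀ i j, |M i j| ≤ b}
      = (Set.univ.pi fun _ : Fin 2 => Set.univ.pi fun _ : Fin 2 => Set.Icc (-b) b) := by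
    ext M
    constructor
    · intro h i _ j _
      exact abs_le.1 (h i j)
    · intro h i j
      exact abs_le.2 (h i trivial j trivial)
  rw [e]
  exact h

/-- The elements of `GL₂(ℝ)` with entries bounded by `b` and entries of the inverse bounded by
`b'`. -/
def glBox3s (b b' : ℝ) : Set (GL (Fin 2) ℝ) :=
  {y | (∀ i j, |(y : Matrix (Fin 2) (Fin 2) ℝ) i j| ≤ b) ∧
    ∀ i j, |((y⁻¹ : GL (Fin 2) ℝ) : Matrix (Fin 2) (Fin 2) ℝ) i j| ≤ b'}

theorem isCompact_glBox3s (b b' : ℝ) : IsCompact (glBox3s b b') := by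
  have h1 := (isCompact_box3s b).prod ((isCompact_box3s b').image MulOpposite.continuous_op)
  have h2 := (Units.isClosedEmbedding_embedProduct
    (α := Matrix (Fin 2) (Fin 2) ℝ)).isCompact_preimage h1
  have e : glBox3s b b' = (Units.embedProduct (Matrix (Fin 2) (Fin 2) ℝ)) ⁻¹'
      ({M : Matrix (Fin 2) (Fin 2) ℝ | ∀ i j, |M i j| ≤ b} ×ˢ
        (MulOpposite.op '' {M : Matrix (Fin 2) (Fin 2) ℝ | ∀ i j, |M i j| ≤ b'})) := by
    ext y
    simp only [glBox3s, Set.mem_ofPred_eq, Set.mem_preimage, Units.embedProduct_apply,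
      Set.mem_prod, Set.mem_image]
    constructor
    · rintro ⟨h, h'⟩
      exact ⟨h, _, h', rfl⟩
    · rintro ⟨h, M, h', e⟩
      refine ⟨h, ?_⟩
      have : M = ((y⁻¹ : GL (Fin 2) ℝ) : Matrix (Fin 2) (Fin 2) ℝ) := MulOpposite.op_injective e
      rw [← this]
      exact h'
  rw [e]
  exact h2

theorem trace_sq3s (y : Matrix (Fin 2) (Fin 2) ℝ) :
    (y.transpose * y).trace = y 0 0 ^ 2 + y 0 1 ^ 2 + y 1 0 ^ 2 + y 1 1 ^ 2 := by
  rw [Matrix.trace_fin_two]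
  simp only [Matrix.mul_apply, Fin.sum_univ_two, Matrix.transpose_apply]
  ring

theorem abs_le_of_sq_le3s {t B : ℝ} (h : t ^ 2 ≤ B) : |t| ≤ B + 1 :=
  abs_le.2 ⟨by nlinarith [sq_nonneg (t + 1)], by nlinarith [sq_nonneg (t - 1)]⟩

theorem mem_glBox3s {y : GL (Fin 2) ℝ} {e B : ℝ} (he : 0 < e)
    (hdet : e ≤ (y : Matrix (Fin 2) (Fin 2) ℝ).det)
    (htr : ((y : Matrix (Fin 2) (Fin 2) ℝ).transpose * (y : Matrix (Fin 2) (Fin 2) ℝ)).trace ≤ B) :
    y ∈ glBox3s (B + 1) ((B + 1) / e) := by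
  rw [trace_sq3s] at htr
  have hd0 : 0 < (y : Matrix (Fin 2) (Fin 2) ℝ).det := lt_of_lt_of_le he hdet
  have hent : ∀ i j, |(y : Matrix (Fin 2) (Fin 2) ℝ) i j| ≤ B + 1 := by
    intro i j
    apply abs_le_of_sq_le3s
    fin_cases i <;> fin_cases j <;> simp only [Fin.zero_eta, Fin.mk_one] <;>
      nlinarith [sq_nonneg ((y : Matrix (Fin 2) (Fin 2) ℝ) 0 0),
        sq_nonneg ((y : Matrix (Fin 2) (Fin 2) ℝ) 0 1),
        sq_nonneg ((y : Matrix (Fin 2) (Fin 2) ℝ) 1 0),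
        sq_nonneg ((y : Matrix (Fin 2) (Fin 2) ℝ) 1 1)]
  have hB : 0 ≤ B + 1 := (abs_nonneg _).trans (hent 0 0)
  refine ⟨hent, ?_⟩
  have hinv : ((y⁻¹ : GL (Fin 2) ℝ) : Matrix (Fin 2) (Fin 2) ℝ)
      = ((y : Matrix (Fin 2) (Fin 2) ℝ).det)⁻¹ • (y : Matrix (Fin 2) (Fin 2) ℝ).adjugate := by
    rw [Matrix.coe_units_inv, Matrix.inv_def, Ring.inverse_eq_inv']
  have hadj : ∀ i j, |(y : Matrix (Fin 2) (Fin 2) ℝ).adjugate i j| ≤ B + 1 := by
    intro i j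
    rw [Matrix.adjugate_fin_two]
    fin_cases i <;> fin_cases j <;> simp <;> exact hent _ _
  intro i j
  rw [hinv, Matrix.smul_apply, smul_eq_mul, abs_mul, abs_inv, abs_of_pos hd0]
  calc ((y : Matrix (Fin 2) (Fin 2) ℝ).det)⁻¹ * |(y : Matrix (Fin 2) (Fin 2) ℝ).adjugate i j|
      ≤ e⁻¹ * (B + 1) :=
        mul_le_mul (inv_anti₀ he hdet) (hadj i j) (abs_nonneg _) (inv_nonneg.2 he.le)
    _ = (B + 1) / e := by rw [div_eq_mul_inv, mul_comm]

theorem hasCompactSupport_abelF03s (c : ℂ) {φ : GL (Fin 2) ℂ → ℂ} (hφ : IsArchTestC φ) :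
    HasCompactSupport (abelF0_626 c φ) := by
  obtain ⟨ε, C, R, hε, hb⟩ := exists_bounds3s hφ
  refine HasCompactSupport.intro
    (isCompact_glBox3s (4 * R ^ 2 * C ^ 2 + 1) ((4 * R ^ 2 * C ^ 2 + 1) / ε ^ 2)) ?_
  intro y hy
  by_contra hne
  have hpos : 0 < (y : Matrix (Fin 2) (Fin 2) ℝ).det := abelF0_pos626 c φ y hne
  have hex : ∃ v : ℝ, φ (toGLC626 (famMat626 (y : Matrix (Fin 2) (Fin 2) ℝ) v)) ≠ 0 := by
    by_contra hall
    simp only [not_exists, not_not] at hall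
    apply hne
    unfold abelF0_626
    rw [if_pos hpos]
    have : (fun v : ℝ => φ (toGLC626 (famMat626 (y : Matrix (Fin 2) (Fin 2) ℝ) v)) /
        ((xv626 (rhoR y) v : ℝ) : ℂ)) = fun _ => 0 := by
      funext v
      rw [hall v, zero_div]
    rw [this, integral_zero, mul_zero]
  obtain ⟨v, hv⟩ := hex
  obtain ⟨h1, h2, h3, -, hR1⟩ := fam_bounds3s hb hε hpos hv
  apply hy
  refine mem_glBox3s (pow_pos hε 2) h1 ?_
  have hρ : rhoM626 (y : Matrix (Fin 2) (Fin 2) ℝ)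
      = ((y : Matrix (Fin 2) (Fin 2) ℝ).transpose * (y : Matrix (Fin 2) (Fin 2) ℝ)).trace
        / (2 * (y : Matrix (Fin 2) (Fin 2) ℝ).det) := by
    unfold rhoM626
    rw [abs_of_pos hpos]
  rw [hρ, div_le_iff₀ (by positivity)] at h3
  have hR2 : 0 ≤ R ^ 2 := sq_nonneg R
  nlinarith

/-! ## E. Continuity -/

/-- Real matrices of positive determinant. -/
abbrev PosMat3s : Type := {M : Matrix (Fin 2) (Fin 2) ℝ // 0 < M.det}

theorem continuous_xv3s :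
    Continuous fun p : PosMat3s × ℝ => xv626 (rhoM626 (p.1 : Matrix (Fin 2) (Fin 2) ℝ)) p.2 := by
  have hM : Continuous fun p : PosMat3s × ℝ => (p.1 : Matrix (Fin 2) (Fin 2) ℝ) :=
    continuous_subtype_val.comp continuous_fst
  have hdet : Continuous fun p : PosMat3s × ℝ => (p.1 : Matrix (Fin 2) (Fin 2) ℝ).det :=
    hM.matrix_det
  have hρ : Continuous fun p : PosMat3s × ℝ => rhoM626 (p.1 : Matrix (Fin 2) (Fin 2) ℝ) := by
    unfold rhoM626
    refine Continuous.div ((hM.matrix_transpose.matrix_mul hM).matrix_trace)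
      (continuous_const.mul hdet.abs) ?_
    intro p
    have := p.1.2
    positivity
  unfold xv626
  exact Real.continuous_sqrt.comp (((hρ.add continuous_const).add
    (continuous_snd.pow 2)).div_const 2)

theorem continuous_famMat3s :
    Continuous fun p : PosMat3s × ℝ => famMat626 (p.1 : Matrix (Fin 2) (Fin 2) ℝ) p.2 := by
  have hM : Continuous fun p : PosMat3s × ℝ => (p.1 : Matrix (Fin 2) (Fin 2) ℝ) :=
    continuous_subtype_val.comp continuous_fst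
  have hv : Continuous fun p : PosMat3s × ℝ => p.2 := continuous_snd
  have hdet : Continuous fun p : PosMat3s × ℝ => (p.1 : Matrix (Fin 2) (Fin 2) ℝ).det :=
    hM.matrix_det
  have hx := continuous_xv3s
  have hs : Continuous fun p : PosMat3s × ℝ =>
      famScal626 (p.1 : Matrix (Fin 2) (Fin 2) ℝ)
        (xv626 (rhoM626 (p.1 : Matrix (Fin 2) (Fin 2) ℝ)) p.2) := by
    unfold famScal626
    refine Continuous.div (Real.continuous_sqrt.comp (Real.continuous_sqrt.comp hdet))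
      (continuous_const.mul (Real.continuous_sqrt.comp (hx.add continuous_const))) ?_
    intro p
    have h0 : 0 ≤ xv626 (rhoM626 (p.1 : Matrix (Fin 2) (Fin 2) ℝ)) p.2 := Real.sqrt_nonneg _
    have : 0 < Real.sqrt (xv626 (rhoM626 (p.1 : Matrix (Fin 2) (Fin 2) ℝ)) p.2 + 1) :=
      Real.sqrt_pos.2 (by linarith)
    positivity
  have hsq : ∀ p : PosMat3s × ℝ,
      Real.sqrt (2 * (p.1 : Matrix (Fin 2) (Fin 2) ℝ).det) ≠ 0 := by
    intro p
    have := p.1.2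
    exact (Real.sqrt_pos.2 (by positivity)).ne'
  have hh1 : Continuous fun p : PosMat3s × ℝ => famH1_626 (p.1 : Matrix (Fin 2) (Fin 2) ℝ) := by
    unfold famH1_626
    exact Continuous.div ((hM.matrix_elem 0 0).sub (hM.matrix_elem 1 1))
      (Real.continuous_sqrt.comp (continuous_const.mul hdet)) hsq
  have hh2 : Continuous fun p : PosMat3s × ℝ => famH2_626 (p.1 : Matrix (Fin 2) (Fin 2) ℝ) := by
    unfold famH2_626
    exact Continuous.div ((hM.matrix_elem 0 1).add (hM.matrix_elem 1 0))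
      (Real.continuous_sqrt.comp (continuous_const.mul hdet)) hsq
  have hp : Continuous fun p : PosMat3s × ℝ =>
      Real.sqrt 2 * (xv626 (rhoM626 (p.1 : Matrix (Fin 2) (Fin 2) ℝ)) p.2 + 1) :=
    continuous_const.mul (hx.add continuous_const)
  have c00 := Complex.continuous_ofReal.comp (hp.add hh1)
  have c11 := Complex.continuous_ofReal.comp (hp.sub hh1)
  have cvI : Continuous fun p : PosMat3s × ℝ => ((p.2 : ℝ) : ℂ) * Complex.I :=
    (Complex.continuous_ofReal.comp hv).mul continuous_const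
  have c01 := (Complex.continuous_ofReal.comp hh2).sub cvI
  have c10 := (Complex.continuous_ofReal.comp hh2).add cvI
  unfold famMat626
  refine Continuous.smul (Complex.continuous_ofReal.comp hs) ?_
  refine continuous_matrix fun i j => ?_
  fin_cases i <;> fin_cases j
  · exact c00
  · exact c01
  · exact c10
  · exact c11

theorem continuous_toGLC_fam3s :
    Continuous fun p : PosMat3s × ℝ =>
      toGLC626 (famMat626 (p.1 : Matrix (Fin 2) (Fin 2) ℝ) p.2) := by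
  apply continuous_toGL830
  have e : (fun p : PosMat3s × ℝ =>
      ((toGLC626 (famMat626 (p.1 : Matrix (Fin 2) (Fin 2) ℝ) p.2) : GL (Fin 2) ℂ) :
        Matrix (Fin 2) (Fin 2) ℂ))
      = fun p => famMat626 (p.1 : Matrix (Fin 2) (Fin 2) ℝ) p.2 := by
    funext p
    exact (famAlg626 (p.1 : Matrix (Fin 2) (Fin 2) ℝ) p.1.2 p.2).2.1
  rw [e]
  exact continuous_famMat3s

/-- The integrand. -/
def intg3s (φ : GL (Fin 2) ℂ → ℂ) (M : Matrix (Fin 2) (Fin 2) ℝ) (v : ℝ) : ℂ :=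
  φ (toGLC626 (famMat626 M v)) / ((xv626 (rhoM626 M) v : ℝ) : ℂ)

theorem continuous_intg3s {φ : GL (Fin 2) ℂ → ℂ} (hφ : IsArchTestC φ) :
    Continuous fun p : PosMat3s × ℝ => intg3s φ (p.1 : Matrix (Fin 2) (Fin 2) ℝ) p.2 := by
  unfold intg3s
  refine Continuous.div (hφ.cont.comp continuous_toGLC_fam3s)
    (Complex.continuous_ofReal.comp continuous_xv3s) ?_
  intro p
  have h1 := one_le_xv626 (rhoM626 (p.1 : Matrix (Fin 2) (Fin 2) ℝ)) p.2
    (one_le_rhoM626 _ p.1.2)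
  exact Complex.ofReal_ne_zero.2 (by linarith)

theorem continuous_intg_left3s {φ : GL (Fin 2) ℂ → ℂ} (hφ : IsArchTestC φ) (M : PosMat3s) :
    Continuous fun v : ℝ => intg3s φ (M : Matrix (Fin 2) (Fin 2) ℝ) v :=
  Continuous.comp (g := fun p : PosMat3s × ℝ => intg3s φ (p.1 : Matrix (Fin 2) (Fin 2) ℝ) p.2)
    (f := fun v : ℝ => ((M, v) : PosMat3s × ℝ)) (continuous_intg3s hφ)
    (Continuous.prodMk continuous_const continuous_id)

theorem continuous_intg_right3s {φ : GL (Fin 2) ℂ → ℂ} (hφ : IsArchTestC φ) (v : ℝ) :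
    Continuous fun M : PosMat3s => intg3s φ (M : Matrix (Fin 2) (Fin 2) ℝ) v :=
  Continuous.comp (g := fun p : PosMat3s × ℝ => intg3s φ (p.1 : Matrix (Fin 2) (Fin 2) ℝ) p.2)
    (f := fun M : PosMat3s => ((M, v) : PosMat3s × ℝ)) (continuous_intg3s hφ)
    (Continuous.prodMk continuous_id continuous_const)

theorem norm_intg_le3s {φ : GL (Fin 2) ℂ → ℂ} {ε C R Cφ : ℝ}
    (hb : ∀ g : GL (Fin 2) ℂ, φ g ≠ 0 →
      ε ≤ ‖(g : Matrix (Fin 2) (Fin 2) ℂ).det‖ ∧ ‖(g : Matrix (Fin 2) (Fin 2) ℂ).det‖ ≤ C ∧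
        rhoC g ≤ R) (hε : 0 < ε) (hCφ : ∀ g, ‖φ g‖ ≤ Cφ) (hCφ0 : 0 ≤ Cφ)
    (M : PosMat3s) (v : ℝ) :
    ‖intg3s φ (M : Matrix (Fin 2) (Fin 2) ℝ) v‖
      ≤ Set.indicator (Set.Icc (-(2 * R)) (2 * R)) (fun _ => Cφ) v := by
  by_cases hv : φ (toGLC626 (famMat626 (M : Matrix (Fin 2) (Fin 2) ℝ) v)) = 0
  · unfold intg3s
    rw [hv, zero_div, norm_zero]
    exact Set.indicator_nonneg (fun _ _ => hCφ0) v
  · obtain ⟨-, -, -, hvR, -⟩ := fam_bounds3s hb hε M.2 hv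
    rw [Set.indicator_of_mem (show v ∈ Set.Icc (-(2 * R)) (2 * R) from abs_le.1 hvR)]
    unfold intg3s
    have hx1 := one_le_xv626 (rhoM626 (M : Matrix (Fin 2) (Fin 2) ℝ)) v
      (one_le_rhoM626 _ M.2)
    rw [norm_div, Complex.norm_real, Real.norm_of_nonneg (by linarith)]
    exact (div_le_self (norm_nonneg _) hx1).trans (hCφ _)

theorem continuous_Fm3s {φ : GL (Fin 2) ℂ → ℂ} (hφ : IsArchTestC φ) :
    Continuous fun M : PosMat3s => ∫ v : ℝ, intg3s φ (M : Matrix (Fin 2) (Fin 2) ℝ) v := by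
  have hfc : FirstCountableTopology (Matrix (Fin 2) (Fin 2) ℝ) :=
    inferInstanceAs (FirstCountableTopology (Fin 2 → Fin 2 → ℝ))
  have hfc' : FirstCountableTopology PosMat3s :=
    Topology.IsEmbedding.firstCountableTopology (f := Subtype.val) Topology.IsEmbedding.subtypeVal
  obtain ⟨ε, C, R, hε, hb⟩ := exists_bounds3s hφ
  obtain ⟨Cφ, hCφ⟩ := hφ.supp.exists_bound_of_continuous hφ.cont
  have hCφ0 : 0 ≤ Cφ := (norm_nonneg _).trans (hCφ 1)
  refine continuous_of_dominated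
    (F := fun (M : PosMat3s) (v : ℝ) => intg3s φ (M : Matrix (Fin 2) (Fin 2) ℝ) v)
    (bound := Set.indicator (Set.Icc (-(2 * R)) (2 * R)) fun _ => Cφ) ?_ ?_ ?_ ?_
  · intro M
    exact (continuous_intg_left3s hφ M).aestronglyMeasurable
  · intro M
    exact Filter.Eventually.of_forall fun v => norm_intg_le3s hb hε hCφ hCφ0 M v
  · rw [integrable_indicator_iff measurableSet_Icc]
    exact continuous_const.integrableOn_Icc
  · exact Filter.Eventually.of_forall fun v => continuous_intg_right3s hφ v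

theorem isOpen_posMat3s : IsOpen {M : Matrix (Fin 2) (Fin 2) ℝ | 0 < M.det} :=
  isOpen_lt continuous_const (continuous_id.matrix_det)

theorem isOpen_negMat3s : IsOpen {M : Matrix (Fin 2) (Fin 2) ℝ | M.det < 0} :=
  isOpen_lt (continuous_id.matrix_det) continuous_const

theorem abelF0_eq3s (c : ℂ) (φ : GL (Fin 2) ℂ → ℂ) (y : GL (Fin 2) ℝ)
    (hy : 0 < (y : Matrix (Fin 2) (Fin 2) ℝ).det) :
    abelF0_626 c φ y = ((Real.sqrt 2 / 4 : ℝ) : ℂ) * c *
      ∫ v : ℝ, intg3s φ (y : Matrix (Fin 2) (Fin 2) ℝ) v := by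
  unfold abelF0_626
  rw [if_pos hy]
  rfl

theorem continuous_abelF03s (c : ℂ) {φ : GL (Fin 2) ℂ → ℂ} (hφ : IsArchTestC φ) :
    Continuous (abelF0_626 c φ) := by
  have hval : Continuous fun y : GL (Fin 2) ℝ => (y : Matrix (Fin 2) (Fin 2) ℝ) :=
    Units.continuous_val
  have hFon : ContinuousOn (fun M : Matrix (Fin 2) (Fin 2) ℝ => ∫ v : ℝ, intg3s φ M v)
      {M : Matrix (Fin 2) (Fin 2) ℝ | 0 < M.det} :=
    continuousOn_iff_continuous_domRestrict.2 (continuous_Fm3s hφ)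
  rw [continuous_iff_continuousAt]
  intro y₀
  by_cases h0 : 0 < (y₀ : Matrix (Fin 2) (Fin 2) ℝ).det
  · have hmem : {M : Matrix (Fin 2) (Fin 2) ℝ | 0 < M.det} ∈ nhds (y₀ : Matrix (Fin 2) (Fin 2) ℝ) :=
      isOpen_posMat3s.mem_nhds h0
    have h1 : ContinuousAt (fun M : Matrix (Fin 2) (Fin 2) ℝ => ∫ v : ℝ, intg3s φ M v)
        (y₀ : Matrix (Fin 2) (Fin 2) ℝ) := hFon.continuousAt hmem
    have h2 : ContinuousAt (fun y : GL (Fin 2) ℝ =>
        ((Real.sqrt 2 / 4 : ℝ) : ℂ) * c * ∫ v : ℝ, intg3s φ (y : Matrix (Fin 2) (Fin 2) ℝ) v) y₀ :=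
      continuousAt_const.mul (ContinuousAt.comp (f := fun y : GL (Fin 2) ℝ =>
        (y : Matrix (Fin 2) (Fin 2) ℝ)) h1 hval.continuousAt)
    refine h2.congr ?_
    have hnb : ∀ᶠ y : GL (Fin 2) ℝ in nhds y₀, 0 < (y : Matrix (Fin 2) (Fin 2) ℝ).det :=
      hval.continuousAt.eventually hmem
    exact hnb.mono fun y hy => (abelF0_eq3s c φ y hy).symm
  · have hneg := det_pos_gl3s y₀ h0
    have hnb : ∀ᶠ y : GL (Fin 2) ℝ in nhds y₀, (y : Matrix (Fin 2) (Fin 2) ℝ).det < 0 :=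
      hval.continuousAt.eventually (isOpen_negMat3s.mem_nhds hneg)
    refine (continuousAt_const (y := (0 : ℂ))).congr ?_
    refine hnb.mono fun y hy => ?_
    unfold abelF0_626
    rw [if_neg (not_lt.2 hy.le)]

/-! ## F. The leaf -/

/-- **T6.20a.5** `F0SoftOfC626`. -/
theorem f0SoftOf3 : F0SoftOfC626 := by
  intro hC c φ hφ
  refine ⟨continuous_abelF03s c hφ, hasCompactSupport_abelF03s c hφ, ?_, ?_⟩
  · intro k g hk
    rw [wtChar_zero3s, inv_one, one_mul]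
    exact abelF0_congr3s hC c hφ g (k * g) (det_mul_left3s hk g) (rhoM_mul_left3s hk g)
  · intro k g hk
    rw [wtChar_zero3s, inv_one, one_mul]
    exact abelF0_congr3s hC c hφ g (g * k) (det_mul_right3s hk g) (rhoM_mul_right3s hk g)

example : Fermat.Agent.LT.T6.H626.F0SoftOfC626 := f0SoftOf3

end Fermat.Agent.LT.T6.H3

end
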